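/-
GATE-N / S48 J1-PORT, node P3-DICT-INT (hedge, helper80): the interior dictionary, `Γ'`-generic,
over `ℂ` — generic twin of `GJ/J2/Dict/InteriorAsmC.lean` on top of `DictIntH/OrbitC.lean`.

Input `IntHyp real jF Γ'` (= the fields of `DictCusp.CuspHyp` without the cusp expansions, plus
`-1 ∈ Γ'`): `real : F →+* Mer` is `ℂ`-linear, `jF ↦ j`, `Γ'` is exactly the invariance group,
`[F : ℂ(jF)] = [SL(2,ℤ) : Γ']`.  Output:

* `placeAt τ`, `eAt τ`, `ordM_real` : `ordM τ (real f) = eAt τ * (placeAt τ).ord f`  ⟹ `e1` =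
  helper6's `FinC1.E1 real` VERBATIM;
* `exists_placeAt_eq` : every place at which `jF` has no pole is some `placeAt τ`;
* `exists_placeAt_eq_unram` : if the elements of finite order of `Γ'` are `±1`, one may take
  `eAt τ = 1`  ⟹ `intDict` = helper75's `PDiv1.IntDict Γ real jF` VERBATIM (any `Γ`).
-/
import Fermat.Agent.DS.P3.DictIntH.OrbitC
import Fermat.Agent.S24.DegOne
import Fermat.Agent.DS.P3.PDiv1
import Fermat.Agent.DS.P3.FinC1

set_option autoImplicit false
set_option linter.unusedSectionVars false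
set_option linter.style.haveILetI false

noncomputable section

namespace Fermat.Agent.DS.P3.DictIntH

open UpperHalfPlane MulAction AlgebraicCurve IntermediateField
open Fermat.Agent.S24 Fermat.Agent.S24_helper82
open Fermat.Agent.LevelOne_helper29 (jInv jInv_smul mdifferentiable_jInv)
open Fermat.Agent.S20_helper25 (Stab mem_Stab card_Stab_smul)
open scoped MatrixGroups

variable {F : Type*} [Field F] [Algebra ℂ F]

/-- **The input of the interior dictionary**. -/
structure IntHyp (real : F →+* Mer) (jF : F) (Γ' : Subgroup SL(2, ℤ)) : Prop where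
  real_const : ∀ c : ℂ, real (algebraMap ℂ F c) = algebraMap ℂ Mer c
  real_j : ∃ jH : Hol, (∀ τ : ℍ, (jH : ℍ → ℂ) τ = jInv τ) ∧ real jF = algebraMap Hol Mer jH
  inv : ∀ γ ∈ Γ', ∀ f : F, compM γ (real f) = real f
  sep : ∀ g : SL(2, ℤ), (∀ f : F, compM g (real f) = real f) → g ∈ Γ'
  finite : FiniteDimensional ℂ⟮jF⟯ F
  deg : Nat.card (SL(2, ℤ) ⧸ Γ') = Module.finrank ℂ⟮jF⟯ F
  neg : (-1 : SL(2, ℤ)) ∈ Γ'

namespace IntHyp

variable {real : F →+* Mer} {jF : F} {Γ' : Subgroup SL(2, ℤ)} (H : IntHyp real jF Γ')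

/-- the `j`-function as an element of `Hol` -/
def jH : Hol := H.real_j.choose

theorem jH_apply (τ : ℍ) : (H.jH : ℍ → ℂ) τ = jInv τ := H.real_j.choose_spec.1 τ

theorem real_jF : real jF = algebraMap Hol Mer H.jH := H.real_j.choose_spec.2

/-- the realization in the sense of `OrbitC` -/
def realization : RealizationC1 jF Γ' where
  ι := RingHom.id ℂ
  R := real
  R_const a := H.real_const a
  jH := H.jH
  jH_apply := H.jH_apply
  R_j := H.real_jF
  R_inv := H.inv

@[simp] theorem realization_R (f : F) : H.realization.R f = real f := rfl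

@[simp] theorem realization_ι (c : ℂ) : H.realization.ι c = c := rfl

include H in
theorem finite_quotient : Finite (SL(2, ℤ) ⧸ Γ') := by
  have := H.finite
  apply Nat.finite_of_card_ne_zero
  rw [H.deg]
  exact Module.finrank_pos.ne'

/-- the `Fintype` structure on the coset space -/
@[reducible] def fintypeQuotient : Fintype (SL(2, ℤ) ⧸ Γ') :=
  have := H.finite_quotient
  Fintype.ofFinite _

include H in
theorem isGen_jF : IsGen ℂ jF := ⟨H.realization.transcendental_jF, H.finite⟩

/-- the conjugate embeddings are pairwise distinct -/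
theorem conj_injective : Function.Injective H.realization.conj := by
  intro q q' h
  have h1 : ∀ f : F, compM (Quotient.out q)⁻¹ (real f) = compM (Quotient.out q')⁻¹ (real f) :=
    fun f => RingHom.congr_fun h f
  have h2 : (Quotient.out q')⁻¹ * Quotient.out q ∈ Γ' := by
    apply H.sep
    intro f
    rw [compM_mul, ← h1 f, ← compM_mul, inv_mul_cancel, compM_one]
  have h3 : ((Quotient.out q' : SL(2, ℤ)) : SL(2, ℤ) ⧸ Γ') = (Quotient.out q : SL(2, ℤ)) :=
    QuotientGroup.eq.mpr h2
  rw [QuotientGroup.out_eq', QuotientGroup.out_eq'] at h3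
  exact h3.symm

theorem card_quotient :
    letI := H.fintypeQuotient
    Fintype.card (SL(2, ℤ) ⧸ Γ') = Module.finrank ℂ⟮jF⟯ F := by
  letI := H.fintypeQuotient
  rw [← H.deg, Nat.card_eq_fintype_card]

/-- the product formula -/
theorem hprod (f : F) (i₀ : SL(2, ℤ) ⧸ Γ') :
    letI := H.fintypeQuotient
    haveI := H.finite
    compM (Quotient.out i₀)⁻¹ (real (algebraMap ℂ⟮jF⟯ F (Algebra.norm ℂ⟮jF⟯ f)))
      = ∏ i : SL(2, ℤ) ⧸ Γ', compM (Quotient.out i)⁻¹ (real f) := by
  letI := H.fintypeQuotient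
  haveI := H.finite
  exact H.realization.hprod H.conj_injective H.card_quotient f i₀

/-! ### the place at a point of `ℍ` -/

theorem valAt_jF_sub (τ : ℍ) :
    H.realization.valAt τ (jF - algebraMap ℂ F (jInv τ)) = (Nat.card (Stab τ) / 2 : ℕ) := by
  have h := H.realization.valAt_sub_const (τ₀ := τ) (c := jInv τ) rfl 1
  rwa [one_smul] at h

theorem valAt_nontrivial (τ : ℍ) : (H.realization.valAt τ).IsNontrivial :=
  ⟨jF - algebraMap ℂ F (jInv τ), H.realization.sub_const_ne_zero _, by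
    rw [valAt_jF_sub]
    exact_mod_cast (Interior.Realization.half_card_Stab_pos τ).ne'⟩

/-- the place of `F` at the image of `τ ∈ ℍ` -/
def placeAt (τ : ℍ) : Place ℂ F := IntVal.placeOf (H.valAt_nontrivial τ)

/-- the ramification index of `ℍ → X(Γ')` at `τ` -/
def eAt (τ : ℍ) : ℤ := IntVal.mult (H.valAt_nontrivial τ)

theorem eAt_pos (τ : ℍ) : 0 < H.eAt τ := IntVal.mult_pos _

/-- **(E1)** the order of vanishing of the realisation at `τ` -/
theorem ordM_real (τ : ℍ) {f : F} (hf : f ≠ 0) :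
    ordM τ (real f) = H.eAt τ * (H.placeAt τ).ord f :=
  IntVal.eq_mult_mul_ord (H.valAt_nontrivial τ) hf

include H in
/-- **(E1)** in the shape of `FinC1.E1` -/
theorem e1 : Fermat.Agent.DS.P3.FinC1.E1 real := by
  intro τ
  refine ⟨H.placeAt τ, (H.eAt τ).toNat, fun f hf => ?_⟩
  rw [Int.toNat_of_nonneg (H.eAt_pos τ).le]
  exact H.ordM_real τ hf

/-! ### base points and the orbit lemma at every finite value of `j` -/

open ModularGroup in
open scoped Modular in
/-- a base point over every value of `j`, with a generator of its stabiliser modulo `±1` -/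
theorem exists_base (c : ℂ) : ∃ (τ₀ : ℍ) (s : SL(2, ℤ)), jInv τ₀ = c ∧ s • τ₀ = τ₀ ∧
    (s ^ (Nat.card (Stab τ₀) / 2) = 1 ∨ s ^ (Nat.card (Stab τ₀) / 2) = -1) ∧
    (Nat.card (Stab τ₀) / 2 = 2 → s 0 0 + s 1 1 = 0) ∧
    (Nat.card (Stab τ₀) / 2 = 3 → (s 0 0 + s 1 1) ^ 2 = 1) ∧
    (1 < Nat.card (Stab τ₀) / 2 → s ≠ 1 ∧ s ≠ -1) := by
  by_cases h1 : c = 1728
  · refine ⟨UpperHalfPlane.I, S, ?_, mem_Stab.mp Fermat.Agent.S20_helper25.S_mem_Stab_I, ?_,
      fun _ => by decide, ?_, fun _ => ⟨by decide, by decide⟩⟩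
    · rw [h1]; exact Fermat.Agent.LevelOne_helper29.jInv_I
    · rw [Fermat.Agent.S20_helper25.card_Stab_I]
      exact Or.inr Fermat.Agent.S20_helper25.S_sq
    · intro h; rw [Fermat.Agent.S20_helper25.card_Stab_I] at h; omega
  by_cases h0 : c = 0
  · refine ⟨ρ, S * T, ?_, mem_Stab.mp Fermat.Agent.S20_helper25.ST_mem_Stab_rho, ?_, ?_,
      fun _ => by decide, fun _ => ⟨by decide, by decide⟩⟩
    · rw [h0]; exact Fermat.Agent.LevelOne_helper29.jInv_rho
    · rw [Fermat.Agent.S20_helper25.card_Stab_rho]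
      exact Or.inr Fermat.Agent.S20_helper25.ST_pow_three
    · intro h; rw [Fermat.Agent.S20_helper25.card_Stab_rho] at h; omega
  · obtain ⟨τ₀, hτ₀⟩ := Fermat.Agent.S24.LocalOrder.exists_jInv_eq c
    have hcard : Nat.card (Stab τ₀) = 2 := by
      refine Fermat.Agent.S20_helper25.card_Stab_of_generic (fun g hg => h1 ?_) (fun g hg => h0 ?_)
      · rw [← hτ₀]; exact (Fermat.Agent.S24.LocalOrder.jInv_eq_1728_iff_orbit τ₀).mpr ⟨g, hg⟩
      · rw [← hτ₀]; exact (Fermat.Agent.S24.LocalOrder.jInv_eq_zero_iff_orbit τ₀).mpr ⟨g, hg⟩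
    refine ⟨τ₀, 1, hτ₀, one_smul _ _, Or.inl (one_pow _), ?_, ?_, ?_⟩ <;> intro h <;>
      rw [hcard] at h <;> omega

/-- **The orbit lemma at `j = j(τ₀)` over `ℂ`**, in terms of `placeAt`, `eAt`. -/
theorem orbit_equivC {τ₀ : ℍ} {s : SL(2, ℤ)} (hs : s • τ₀ = τ₀)
    (hpow : s ^ (Nat.card (Stab τ₀) / 2) = 1 ∨ s ^ (Nat.card (Stab τ₀) / 2) = -1)
    (h2 : Nat.card (Stab τ₀) / 2 = 2 → s 0 0 + s 1 1 = 0)
    (h3 : Nat.card (Stab τ₀) / 2 = 3 → (s 0 0 + s 1 1) ^ 2 = 1) :
    ∃ φ : orbitRel.Quotient (Subgroup.zpowers s) (SL(2, ℤ) ⧸ Γ') ≃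
        Fibre ℂ (jF - algebraMap ℂ F (jInv τ₀)),
      (∀ i : SL(2, ℤ) ⧸ Γ', (φ (Quotient.mk'' i)).1 = H.placeAt ((Quotient.out i)⁻¹ • τ₀)) ∧
      ∀ i : SL(2, ℤ) ⧸ Γ', H.eAt ((Quotient.out i)⁻¹ • τ₀) *
        (Nat.card (orbit (Subgroup.zpowers s) i) : ℤ) = (Nat.card (Stab τ₀) / 2 : ℕ) := by
  letI := H.fintypeQuotient
  haveI := H.finite
  obtain ⟨hfin, hN, hWA⟩ := H.realization.norm_package (jInv τ₀)
  haveI := hfin
  have hc : jInv τ₀ = H.realization.ι (jInv τ₀) := rfl
  obtain ⟨φ, hφ1, hφ2⟩ := H.realization.orbit_equiv hc ℂ⟮jF⟯ H.neg hN hWA H.hprod hs hpow h2 h3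
  refine ⟨φ, fun i => ?_, fun i => ?_⟩
  · rw [hφ1 i]
    rfl
  · have h4 := (H.realization.orbitData hc).mult_mul_ord_x i
    have h5 := hφ2 (Quotient.mk'' i)
    rw [hφ1 i] at h5
    rw [h5, orbitRel.Quotient.orbit_mk] at h4
    exact h4

/-! ### exhaustion -/

/-- **(E3), finite part**: every place of `F` at which `jF` has no pole is the place at a point of
`ℍ`. -/
theorem exists_placeAt_eq (P : Place ℂ F) (hP : ¬ P.ord jF < 0) :
    ∃ τ : ℍ, P = H.placeAt τ := by
  haveI := H.isGen_jF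
  rcases PlaceB.pole_or_center P jF with h | ⟨c, hc⟩
  · exact absurd h hP
  obtain ⟨τ₀, s, hτ₀, hs, hpow, h2, h3, -⟩ := exists_base c
  subst hτ₀
  obtain ⟨φ, hφ1, -⟩ := H.orbit_equivC hs hpow h2 h3
  obtain ⟨o, ho⟩ := φ.surjective ⟨P, hc⟩
  induction o using Quotient.inductionOn' with
  | h i =>
    refine ⟨(Quotient.out i)⁻¹ • τ₀, ?_⟩
    rw [← hφ1 i]
    exact (congrArg Subtype.val ho).symm

/-- **exhaustion, unramified form**: if the elements of finite order of `Γ'` are `±1`, every place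
at which `jF` has no pole is the place at a point `τ` with `eAt τ = 1`. -/
theorem exists_placeAt_eq_unram
    (htf : ∀ x ∈ Γ', IsOfFinOrder x → x = 1 ∨ x = -1)
    (P : Place ℂ F) (hP : ¬ P.ord jF < 0) :
    ∃ τ : ℍ, P = H.placeAt τ ∧ H.eAt τ = 1 := by
  haveI := H.isGen_jF
  rcases PlaceB.pole_or_center P jF with h | ⟨c, hc⟩
  · exact absurd h hP
  obtain ⟨τ₀, s, hτ₀, hs, hpow, h2, h3, hne⟩ := exists_base c
  subst hτ₀
  obtain ⟨φ, hφ1, hφ2⟩ := H.orbit_equivC hs hpow h2 h3
  obtain ⟨o, ho⟩ := φ.surjective ⟨P, hc⟩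
  induction o using Quotient.inductionOn' with
  | h i =>
    refine ⟨(Quotient.out i)⁻¹ • τ₀, ?_, ?_⟩
    · rw [← hφ1 i]
      exact (congrArg Subtype.val ho).symm
    · -- `eAt * #orbit = e₀ ∈ {1, 2, 3}`; `#orbit = 1 < e₀` is impossible
      have hmul := hφ2 i
      have hepos := H.eAt_pos ((Quotient.out i)⁻¹ • τ₀)
      set e := H.eAt ((Quotient.out i)⁻¹ • τ₀) with he
      set h := Nat.card (orbit (Subgroup.zpowers s) i) with hh
      -- `s` has finite order
      have hsfin : IsOfFinOrder s := by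
        rw [isOfFinOrder_iff_pow_eq_one]
        refine ⟨2 * (Nat.card (Stab τ₀) / 2), ?_, ?_⟩
        · have := Interior.Realization.half_card_Stab_pos τ₀
          omega
        · rw [mul_comm, pow_mul]
          rcases hpow with hp | hp
          · rw [hp, one_pow]
          · rw [hp]; decide
      -- if the orbit is a point then `s = ±1`
      have hfix : h = 1 → s = 1 ∨ s = -1 := by
        intro h1
        have hsub : Subsingleton (orbit (Subgroup.zpowers s) i) :=
          (Nat.card_eq_one_iff_unique.mp (hh ▸ h1)).1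
        have hsi : s • i = i := by
          have hmem : s • i ∈ orbit (Subgroup.zpowers s) i :=
            ⟨⟨s, Subgroup.mem_zpowers s⟩, rfl⟩
          have h0 : i ∈ orbit (Subgroup.zpowers s) i := mem_orbit_self i
          exact congrArg Subtype.val (hsub.elim ⟨s • i, hmem⟩ ⟨i, h0⟩)
        obtain ⟨g, rfl⟩ := QuotientGroup.mk_surjective i
        rw [MulAction.Quotient.smul_mk, QuotientGroup.eq, smul_eq_mul] at hsi
        have hmem : g⁻¹ * s * g ∈ Γ' := by
          have := inv_mem hsi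
          simpa [mul_assoc] using this
        have hfin : IsOfFinOrder (g⁻¹ * s * g) := by
          have := (MulAut.conj g⁻¹).toMonoidHom.isOfFinOrder hsfin
          simpa [MulAut.conj_apply] using this
        rcases htf _ hmem hfin with h1' | h1'
        · left
          have : s = g * (g⁻¹ * s * g) * g⁻¹ := by group
          rw [this, h1']; group
        · right
          have : s = g * (g⁻¹ * s * g) * g⁻¹ := by group
          rw [this, h1']
          simp
      rcases Fermat.Agent.S20_helper25.card_Stab τ₀ with hc' | hc' | hc'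
      · have he0 : Nat.card (Stab τ₀) / 2 = 1 := by rw [hc']
        rw [he0] at hmul
        have hh0 : (0 : ℤ) ≤ h := Int.natCast_nonneg _
        have : e ∣ 1 := ⟨h, by rw [hmul]; rfl⟩
        exact Int.eq_one_of_dvd_one hepos.le this
      · have he0 : Nat.card (Stab τ₀) / 2 = 2 := by rw [hc']
        rw [he0] at hmul
        have hdvd : h ∣ 2 := by
          have : (h : ℤ) ∣ 2 := ⟨e, by rw [mul_comm]; exact_mod_cast hmul.symm⟩
          exact_mod_cast this
        rcases (Nat.dvd_prime Nat.prime_two).mp hdvd with h1 | h1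
        · exfalso
          have := hne (by rw [he0]; norm_num)
          rcases hfix h1 with h' | h'
          · exact this.1 h'
          · exact this.2 h'
        · rw [h1] at hmul
          push_cast at hmul
          omega
      · have he0 : Nat.card (Stab τ₀) / 2 = 3 := by rw [hc']
        rw [he0] at hmul
        have hdvd : h ∣ 3 := by
          have : (h : ℤ) ∣ 3 := ⟨e, by rw [mul_comm]; exact_mod_cast hmul.symm⟩
          exact_mod_cast this
        rcases (Nat.dvd_prime Nat.prime_three).mp hdvd with h1 | h1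
        · exfalso
          have := hne (by rw [he0]; norm_num)
          rcases hfix h1 with h' | h'
          · exact this.1 h'
          · exact this.2 h'
        · rw [h1] at hmul
          push_cast at hmul
          omega

include H in
/-- **the interior dictionary** = `PDiv1.IntDict Γ real jF` VERBATIM (any `Γ`), when the elements of
finite order of `Γ'` are `±1`. -/
theorem intDict (htf : ∀ x ∈ Γ', IsOfFinOrder x → x = 1 ∨ x = -1) (Γ : Subgroup SL(2, ℤ)) :
    Fermat.Agent.DS.P3.PDiv1.IntDict Γ real jF := by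
  apply Fermat.Agent.DS.P3.PDiv1.intDict_of_unramified
  intro Q hQ
  obtain ⟨τ, hτ, he⟩ := H.exists_placeAt_eq_unram htf Q hQ
  refine ⟨τ, fun u hu => ?_⟩
  rw [H.ordM_real τ hu, he, one_mul, hτ]

end IntHyp

end Fermat.Agent.DS.P3.DictIntH
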