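/-
GATE-N / S48 J1-PORT, node P3-DICT-INT (hedge, helper80): the interior dictionary of `X₁(M)`.

`DictIntH/Asm.lean` instantiated at helper30's realisation `realR D : F1C ℂ M →+* Mer`
(`D : WeberData M`), `jF := j1C M`, `Γ' := ±Γ₁(M)`, from helper16's `cuspHyp1 D`:

* `intHyp1 D : IntHyp (realR D) (j1C M) (pm (Gamma1 M))`;
* `e1_1 D : FinC1.E1 (realR D)`  (helper6's (E1), the `hE1` of helper94's `eig1All2_of_exp`);
* `intDict1 D (hM : 4 ≤ M) : PDiv1.IntDict (Gamma1 M) (realR D) (j1C M)`  (the `hI` of helper75's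
  `pdivG_of_dict_Gamma1` / helper94's `eig1All2_of_exp`).

Generic adapters: `IntHyp.of_cuspHyp` (any `CuspHyp` with `-1 ∈ Γ'` is an `IntHyp`),
`finOrder_pm_of_torsionFree` (`Γ` torsion-free ⟹ the finite-order elements of `±Γ` are `±1`).
-/
import Fermat.Agent.DS.P3.DictIntH.Asm
import Fermat.Agent.DS.P3.DictCuspInst

set_option autoImplicit false
set_option linter.unusedSectionVars false

noncomputable section

namespace Fermat.Agent.DS.P3.DictIntH

open UpperHalfPlane IntermediateField CongruenceSubgroup AlgebraicCurve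
open Fermat.Agent.S24_helper82
open Fermat.Agent.DS.P0 Fermat.Agent.DS.P1.FieldGenG Fermat.Agent.DS.P1.RealizeF1
open Fermat.Agent.DS.P3.DictCusp Fermat.Agent.DS.P3.DictCuspInst
open scoped MatrixGroups

/-- a `CuspHyp` whose group contains `-1` is an `IntHyp` -/
theorem IntHyp.of_cuspHyp {F : Type*} [Field F] [Algebra ℂ F] {real : F →+* Mer} {jF : F}
    {Γ' : Subgroup SL(2, ℤ)} {N : ℕ} (H : CuspHyp real jF Γ' N) (hneg : (-1 : SL(2, ℤ)) ∈ Γ') :
    IntHyp real jF Γ' where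
  real_const := H.real_const
  real_j := H.real_j
  inv := H.inv
  sep := H.sep
  finite := H.finite
  deg := H.deg
  neg := hneg

theorem neg_one_mem_pm (Γ : Subgroup SL(2, ℤ)) : (-1 : SL(2, ℤ)) ∈ pm Γ := by
  refine mem_pm.mpr (Or.inr ?_)
  rw [neg_neg]
  exact Γ.one_mem

/-- if `Γ` is torsion-free, the elements of finite order of `±Γ` are `±1` -/
theorem finOrder_pm_of_torsionFree {Γ : Subgroup SL(2, ℤ)}
    (htf : ∀ g : ↥Γ, IsOfFinOrder g → g = 1) :
    ∀ x ∈ pm Γ, IsOfFinOrder x → x = 1 ∨ x = -1 := by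
  intro x hx hfin
  have key : ∀ y : SL(2, ℤ), y ∈ Γ → IsOfFinOrder y → y = 1 := by
    intro y hy hyfin
    have h1 : IsOfFinOrder (⟨y, hy⟩ : ↥Γ) := by
      obtain ⟨m, hm, hym⟩ := isOfFinOrder_iff_pow_eq_one.mp hyfin
      refine isOfFinOrder_iff_pow_eq_one.mpr ⟨m, hm, ?_⟩
      apply Subtype.ext
      rw [Subgroup.coe_pow, Subgroup.coe_one]
      exact hym
    exact congrArg Subtype.val (htf ⟨y, hy⟩ h1)
  rcases mem_pm.mp hx with h | h
  · exact Or.inl (key x h hfin)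
  · right
    have hnfin : IsOfFinOrder (-x) := by
      obtain ⟨m, hm, hxm⟩ := isOfFinOrder_iff_pow_eq_one.mp hfin
      refine isOfFinOrder_iff_pow_eq_one.mpr ⟨2 * m, by omega, ?_⟩
      have h2 : (-x) ^ 2 = x ^ 2 := by
        rw [pow_two, pow_two]
        simp
      rw [pow_mul, h2, ← pow_mul, mul_comm, pow_mul, hxm, one_pow]
    have := key (-x) h hnfin
    rw [← this, neg_neg]

variable {M : ℕ} [NeZero M] (D : WeberData M)

/-- **the `IntHyp` instance of `X₁(M)`** -/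
theorem intHyp1 : IntHyp (realR D) (j1C M) (pm (Gamma1 M)) :=
  IntHyp.of_cuspHyp (cuspHyp1 D) (neg_one_mem_pm _)

/-- **(E1) for `X₁(M)`** = `FinC1.E1 (realR D)` -/
theorem e1_1 : Fermat.Agent.DS.P3.FinC1.E1 (realR D) := (intHyp1 D).e1

/-- the elements of finite order of `±Γ₁(M)`, `4 ≤ M`, are `±1` -/
theorem finOrder_pm_Gamma1 (hM : 4 ≤ M) :
    ∀ x ∈ pm (Gamma1 M), IsOfFinOrder x → x = 1 ∨ x = -1 :=
  finOrder_pm_of_torsionFree (Fermat.Agent.DS.P3.TorsionFree1.torsionFree_Gamma1 hM)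

/-- **the interior dictionary of `X₁(M)`, `4 ≤ M`** (`hI` of helper75's `pdivG_of_dict_Gamma1`) -/
theorem intDict1 (hM : 4 ≤ M) :
    Fermat.Agent.DS.P3.PDiv1.IntDict (Gamma1 M) (realR D) (j1C M) :=
  (intHyp1 D).intDict (finOrder_pm_Gamma1 hM) (Gamma1 M)

/-- every place of `ℂ(X₁(M))` without pole of `j` is the place of a point of `ℍ`, unramified
(`4 ≤ M`) -/
theorem exists_point1 (hM : 4 ≤ M) (Q : Place ℂ (F1C ℂ M)) (hQ : ¬ Q.ord (j1C M) < 0) :
    ∃ τ : ℍ, ∀ u : F1C ℂ M, u ≠ 0 → ordM τ (realR D u) = Q.ord u := by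
  obtain ⟨τ, hτ, he⟩ := (intHyp1 D).exists_placeAt_eq_unram (finOrder_pm_Gamma1 hM) Q hQ
  refine ⟨τ, fun u hu => ?_⟩
  rw [(intHyp1 D).ordM_real τ hu, he, one_mul, hτ]

end Fermat.Agent.DS.P3.DictIntH
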