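/-
GATE-N / S48 J1-PORT, node P3-DICT (helper80): transport of the three dictionary statements
`PDiv1.IntDict`, `PDiv1.CuspDict`, `FinC1.E1` along an EQUALITY of intermediate fields
(`↥E₁` and `↥E₂` are different types), e.g. `laurentBaseChange ℂ (F1 M) = F1C ℂ M`.
-/
import Fermat.Agent.DS.P3.PDiv1
import Fermat.Agent.DS.P3.FinC1

set_option autoImplicit false

noncomputable section

namespace Fermat.Agent.DS.P3.DictIntH

open UpperHalfPlane AlgebraicCurve IntermediateField
open Fermat.Agent.S24_helper82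
open scoped MatrixGroups

variable {L : Type*} [Field L] [Algebra ℂ L]

/-- the transported realisation `real ∘ equivOfEq h` -/
def realOfEq {E₁ E₂ : IntermediateField ℂ L} (h : E₁ = E₂) (real : ↥E₂ →+* Mer) : ↥E₁ →+* Mer :=
  real.comp ((IntermediateField.equivOfEq h : ↥E₁ ≃ₐ[ℂ] ↥E₂) : ↥E₁ →+* ↥E₂)

theorem realOfEq_apply {E₁ E₂ : IntermediateField ℂ L} (h : E₁ = E₂) (real : ↥E₂ →+* Mer)
    (x : ↥E₁) : realOfEq h real x = real (IntermediateField.equivOfEq h x) := rfl

theorem realOfEq_rfl {E : IntermediateField ℂ L} (real : ↥E →+* Mer) :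
    realOfEq (rfl : E = E) real = real := by
  ext x
  rw [realOfEq_apply, IntermediateField.equivOfEq_rfl]
  rfl

theorem equivOfEq_symm_rfl {E : IntermediateField ℂ L} (x : ↥E) :
    (IntermediateField.equivOfEq (rfl : E = E)).symm x = x := by
  rw [IntermediateField.equivOfEq_rfl]
  rfl

/-- transport of `IntDict` -/
theorem intDict_of_eq {E₁ E₂ : IntermediateField ℂ L} (h : E₁ = E₂) (Γ : Subgroup SL(2, ℤ))
    {real : ↥E₂ →+* Mer} {jF : ↥E₂} (hI : Fermat.Agent.DS.P3.PDiv1.IntDict Γ real jF) :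
    Fermat.Agent.DS.P3.PDiv1.IntDict Γ (realOfEq h real)
      ((IntermediateField.equivOfEq h).symm jF) := by
  subst h
  rw [realOfEq_rfl, equivOfEq_symm_rfl]
  exact hI

/-- transport of `CuspDict` -/
theorem cuspDict_of_eq {E₁ E₂ : IntermediateField ℂ L} (h : E₁ = E₂) (Γ : Subgroup SL(2, ℤ))
    {real : ↥E₂ →+* Mer} {jF : ↥E₂} (hC : Fermat.Agent.DS.P3.PDiv1.CuspDict Γ real jF) :
    Fermat.Agent.DS.P3.PDiv1.CuspDict Γ (realOfEq h real)
      ((IntermediateField.equivOfEq h).symm jF) := by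
  subst h
  rw [realOfEq_rfl, equivOfEq_symm_rfl]
  exact hC

/-- transport of `E1` -/
theorem e1_of_eq {E₁ E₂ : IntermediateField ℂ L} (h : E₁ = E₂)
    {real : ↥E₂ →+* Mer} (hE : Fermat.Agent.DS.P3.FinC1.E1 real) :
    Fermat.Agent.DS.P3.FinC1.E1 (realOfEq h real) := by
  subst h
  rw [realOfEq_rfl]
  exact hE

/-- transport of any statement about `(real, jF)` (the general principle) -/
theorem transport_of_eq {E₁ E₂ : IntermediateField ℂ L} (h : E₁ = E₂)
    (P : ∀ E : IntermediateField ℂ L, (↥E →+* Mer) → ↥E → Prop)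
    {real : ↥E₂ →+* Mer} {jF : ↥E₂} (hP : P E₂ real jF) :
    P E₁ (realOfEq h real) ((IntermediateField.equivOfEq h).symm jF) := by
  subst h
  rw [realOfEq_rfl, equivOfEq_symm_rfl]
  exact hP

end Fermat.Agent.DS.P3.DictIntH
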